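import Mathlib

/-!
# Etale monogenic extensions and the Artin–Schreier–Kummer polynomial (helper74, P-S44 leaf BL)

Mathlib-only.

* `EtaleAdjoin.mem_adjoin_of_isUnit_discr`, `integralClosure_eq_adjoin_of_isUnit_discr`,
  `mem_adjoin_of_isUnit_derivative`: `R` integrally closed domain, `K = Frac R`, `L/K` finite
  separable with power basis generated by an `R`-integral `θ`; if the discriminant is a unit of `R`
  (or `P'(θ)` has an `R`-integral inverse, `P = minpoly`), then `integralClosure R L = R[θ]`.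
* `ASK.askPoly p π ε = X^p + ε ∑_{0<k<p} (binom(p,k)/p) π^(k-1) X^k` with
  `π^p Q = (1 + π X)^p - 1` (`C_pow_mul_askPoly`), monic of degree `p`, `Q' = ε (1+πX)^(p-1)`
  (`derivative_askPoly`), `Q = X^p + ε X + π S` (`askPoly_eq_add_mul`), the Kummer substitution
  `aeval_askPoly_sub` (`z^p = g^p (1 + π^p G) ⇒ Q((z/g-1)/π) = G`) and `one_add_mul_pow_of_root`.
* `BL.integralClosure_eq_adjoin_ask`: the consumer form: if `ε` and `1 + π^p G` are units of `R`,
  `θ` a root of `Q - G` generating `L/K` of degree `p`, then `integralClosure R L = R[θ]`.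
-/

set_option autoImplicit false
set_option linter.unusedSectionVars false
namespace Fermat.Agent.S40x.EtaleAdjoin

open Polynomial

variable {R K L : Type*} [CommRing R] [IsDomain R] [IsIntegrallyClosed R]
  [Field K] [Field L] [Algebra R K] [IsFractionRing R K]
  [Algebra K L] [Algebra R L] [IsScalarTower R K L]
  [FiniteDimensional K L] [Algebra.IsSeparable K L]

/-- If the discriminant of a power basis with integral generator is (the image of) a unit of `R`,
every `R`-integral element of `L` lies in `R[θ]`. -/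
theorem mem_adjoin_of_isUnit_discr (B : PowerBasis K L) (hint : IsIntegral R B.gen)
    {d : R} (hd : IsUnit d) (hdisc : algebraMap R K d = Algebra.discr K B.basis)
    {z : L} (hz : IsIntegral R z) : z ∈ Algebra.adjoin R ({B.gen} : Set L) := by
  have h1 := Algebra.discr_mul_isIntegral_mem_adjoin (R := R) (K := K) hint hz
  rw [← hdisc, algebraMap_smul] at h1
  obtain ⟨u, rfl⟩ := hd
  have h2 : z = (↑u⁻¹ : R) • ((↑u : R) • z) := by
    rw [smul_smul, Units.inv_mul, one_smul]
  rw [h2]
  exact Subalgebra.smul_mem _ h1 _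

/-- The integral closure of `R` in `L` is `R[θ]`. -/
theorem integralClosure_eq_adjoin_of_isUnit_discr (B : PowerBasis K L) (hint : IsIntegral R B.gen)
    {d : R} (hd : IsUnit d) (hdisc : algebraMap R K d = Algebra.discr K B.basis) :
    integralClosure R L = Algebra.adjoin R ({B.gen} : Set L) := by
  apply le_antisymm
  · intro z hz
    exact mem_adjoin_of_isUnit_discr B hint hd hdisc hz
  · rw [Algebra.adjoin_le_iff]
    intro x hx
    rw [Set.mem_singleton_iff] at hx
    subst hx
    exact hint

/-- Norm of an integral element with integral inverse is the image of a unit of `R`. -/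
theorem exists_isUnit_norm_eq {x w : L} (hx : IsIntegral R x) (hw : IsIntegral R w)
    (hxw : x * w = 1) : ∃ d : R, IsUnit d ∧ algebraMap R K d = Algebra.norm K x := by
  obtain ⟨a, ha⟩ := IsIntegrallyClosed.isIntegral_iff.mp (Algebra.isIntegral_norm K hx)
  obtain ⟨b, hb⟩ := IsIntegrallyClosed.isIntegral_iff.mp (Algebra.isIntegral_norm K hw)
  refine ⟨a, ?_, ha⟩
  have h1 : algebraMap R K (a * b) = 1 := by
    rw [map_mul, ha, hb, ← map_mul, hxw, map_one]
  have h2 : a * b = 1 := by
    apply IsFractionRing.injective R K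
    rw [h1, map_one]
  exact IsUnit.of_mul_eq_one _ h2

/-- Version with the derivative of the minimal polynomial: if `P'(θ)` has an `R`-integral inverse,
then every `R`-integral element lies in `R[θ]`. -/
theorem mem_adjoin_of_isUnit_derivative (B : PowerBasis K L) (hint : IsIntegral R B.gen)
    {w : L} (hw : IsIntegral R w)
    (hPw : aeval B.gen (derivative (minpoly K B.gen)) * w = 1)
    {z : L} (hz : IsIntegral R z) : z ∈ Algebra.adjoin R ({B.gen} : Set L) := by
  -- `P'(θ)` is integral
  have hmin : minpoly K B.gen = (minpoly R B.gen).map (algebraMap R K) :=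
    minpoly.isIntegrallyClosed_eq_field_fractions K L hint
  have hder : IsIntegral R (aeval B.gen (derivative (minpoly K B.gen))) := by
    rw [hmin, derivative_map, aeval_map_algebraMap]
    have h1 : aeval B.gen (derivative (minpoly R B.gen)) ∈
        Algebra.adjoin R ({B.gen} : Set L) := aeval_mem_adjoin_singleton _ _
    have h2 : Algebra.adjoin R ({B.gen} : Set L) ≤ integralClosure R L :=
      Algebra.adjoin_le (by
        intro x hx
        rw [Set.mem_singleton_iff] at hx
        subst hx
        exact hint)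
    exact h2 h1
  obtain ⟨d, hd, hdn⟩ := exists_isUnit_norm_eq (R := R) (K := K) hder hw hPw
  -- discriminant = ± norm
  have hdisc := Algebra.discr_powerBasis_eq_norm K B
  set n := B.dim with hn
  have hsign : IsUnit ((-1 : R) ^ (n * (n - 1) / 2) * d) :=
    (IsUnit.pow _ (isUnit_one.neg)).mul hd
  refine mem_adjoin_of_isUnit_discr B hint hsign ?_ hz
  rw [hdisc, map_mul, map_pow, map_neg, map_one, hdn]
  congr 2
  exact (PowerBasis.finrank B).symm ▸ rfl

end Fermat.Agent.S40x.EtaleAdjoin

namespace Fermat.Agent.S40x.ASK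

open Polynomial Finset

variable {R : Type*} [CommRing R]

/-- the Artin–Schreier–Kummer polynomial -/
noncomputable def askPoly (p : ℕ) (π ε : R) : R[X] :=
  X ^ p + C ε * ∑ k ∈ Ico 1 p, C (((p.choose k / p : ℕ) : R) * π ^ (k - 1)) * X ^ k

theorem choose_div_mul {p : ℕ} (hp : p.Prime) {k : ℕ} (hk : k ∈ Ico 1 p) :
    p.choose k / p * p = p.choose k := by
  rw [mem_Ico] at hk
  exact Nat.div_mul_cancel (hp.dvd_choose_self (by omega) hk.2)

/-- **the defining identity** `π^p Q(X) = (1 + π X)^p - 1`. -/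
theorem C_pow_mul_askPoly {p : ℕ} (hp : p.Prime) {π ε : R} (h : (p : R) = ε * π ^ (p - 1)) :
    C (π ^ p) * askPoly p π ε = (1 + C π * X) ^ p - 1 := by
  have hp1 : 1 ≤ p := hp.one_lt.le
  -- expand the right hand side
  have hexp : (1 + C π * X : R[X]) ^ p =
      ∑ k ∈ range (p + 1), C ((p.choose k : R) * π ^ k) * X ^ k := by
    rw [add_comm, add_pow]
    refine sum_congr rfl fun k hk => ?_
    rw [one_pow, mul_one, mul_pow, ← C_pow, map_mul, map_natCast]
    ring
  have hsplit : ∑ k ∈ range (p + 1), C ((p.choose k : R) * π ^ k) * X ^ k =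
      1 + ∑ k ∈ Ico 1 p, C ((p.choose k : R) * π ^ k) * X ^ k + C (π ^ p) * X ^ p := by
    rw [sum_range_succ, range_eq_Ico, ← sum_Ico_consecutive _ (Nat.zero_le 1) hp1]
    simp
  rw [hexp, hsplit, askPoly, mul_add, ← mul_assoc, mul_sum]
  have hterm : ∀ k ∈ Ico 1 p,
      C (π ^ p) * C ε * (C (((p.choose k / p : ℕ) : R) * π ^ (k - 1)) * X ^ k) =
        C ((p.choose k : R) * π ^ k) * X ^ k := by
    intro k hk
    have hk1 : 1 ≤ k := (mem_Ico.mp hk).1
    have hc : ((p.choose k / p : ℕ) : R) * (p : R) = (p.choose k : R) := by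
      rw [← Nat.cast_mul, choose_div_mul hp hk]
    have hpow : π ^ p = π ^ (p - 1) * π := by
      rw [← pow_succ, Nat.sub_add_cancel hp1]
    have hpowk : π ^ k = π ^ (k - 1) * π := by
      rw [← pow_succ, Nat.sub_add_cancel hk1]
    rw [← mul_assoc, ← C_mul, ← C_mul]
    congr 2
    rw [← hc, h, hpow, hpowk]
    ring
  rw [sum_congr rfl hterm]
  ring

theorem degree_lower_lt {p : ℕ} (π ε : R) :
    (C ε * ∑ k ∈ Ico 1 p, C (((p.choose k / p : ℕ) : R) * π ^ (k - 1)) * X ^ k).degree < p := by
  rw [degree_lt_iff_coeff_zero]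
  intro m hm
  rw [coeff_C_mul, finsetSum_coeff]
  rw [sum_eq_zero, mul_zero]
  intro k hk
  rw [coeff_C_mul_X_pow, if_neg]
  have := (mem_Ico.mp hk).2
  omega

theorem askPoly_monic {p : ℕ} (π ε : R) : (askPoly p π ε).Monic :=
  monic_X_pow_add (degree_lower_lt π ε)

theorem askPoly_natDegree [Nontrivial R] {p : ℕ} (π ε : R) : (askPoly p π ε).natDegree = p := by
  rw [askPoly, natDegree_add_eq_left_of_degree_lt, natDegree_X_pow]
  rw [degree_X_pow]
  exact degree_lower_lt π ε

/-- derivative, domain version: `Q' = ε (1 + π X)^(p-1)`. -/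
theorem derivative_askPoly [IsDomain R] {p : ℕ} (hp : p.Prime) {π ε : R} (hπ : π ≠ 0)
    (h : (p : R) = ε * π ^ (p - 1)) :
    derivative (askPoly p π ε) = C ε * (1 + C π * X) ^ (p - 1) := by
  have hp1 : 1 ≤ p := hp.one_lt.le
  have h1 := congrArg derivative (C_pow_mul_askPoly hp h)
  rw [derivative_C_mul, derivative_sub, derivative_one, sub_zero, derivative_pow,
    derivative_add, derivative_one, zero_add, derivative_C_mul, derivative_X, mul_one] at h1
  have hpow : π ^ p = π ^ (p - 1) * π := by
    rw [← pow_succ, Nat.sub_add_cancel hp1]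
  have h2 : C (π ^ p) * derivative (askPoly p π ε) =
      C (π ^ p) * (C ε * (1 + C π * X) ^ (p - 1)) := by
    rw [h1, show (C (p : R) : R[X]) = C (ε * π ^ (p - 1)) by rw [h], hpow]
    simp only [map_mul, map_pow]
    ring
  have hne : C (π ^ p) ≠ (0 : R[X]) := by
    rw [Ne, C_eq_zero]
    exact pow_ne_zero _ hπ
  exact mul_left_cancel₀ hne h2

/-- reduction modulo `π`: `Q = X^p + ε X + π S`. -/
theorem askPoly_eq_add_mul {p : ℕ} (hp : p.Prime) (π ε : R) :
    ∃ S : R[X], askPoly p π ε = X ^ p + C ε * X + C π * S := by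
  have hp3 : 2 ≤ p := hp.two_le
  have h12 : 1 ≤ 2 := by norm_num
  refine ⟨C ε * ∑ k ∈ Ico 2 p, C (((p.choose k / p : ℕ) : R) * π ^ (k - 2)) * X ^ k, ?_⟩
  rw [askPoly, ← sum_Ico_consecutive
    (fun k : ℕ => (C (((p.choose k / p : ℕ) : R) * π ^ (k - 1)) * X ^ k : R[X])) h12 hp3]
  have h1 : ∑ k ∈ Ico 1 2, C (((p.choose k / p : ℕ) : R) * π ^ (k - 1)) * X ^ k = (X : R[X]) := by
    have : Ico 1 2 = ({1} : Finset ℕ) := rfl
    rw [this, sum_singleton, Nat.choose_one_right, Nat.div_self hp.pos]
    simp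
  have h2 : ∑ k ∈ Ico 2 p, (C (((p.choose k / p : ℕ) : R) * π ^ (k - 1)) * X ^ k : R[X]) =
      C π * ∑ k ∈ Ico 2 p, C (((p.choose k / p : ℕ) : R) * π ^ (k - 2)) * X ^ k := by
    rw [mul_sum]
    refine sum_congr rfl fun k hk => ?_
    have hk2 : 2 ≤ k := (mem_Ico.mp hk).1
    have hpow : π ^ (k - 1) = π * π ^ (k - 2) := by
      rw [← pow_succ', show k - 2 + 1 = k - 1 by omega]
    rw [← mul_assoc, ← C_mul, hpow]
    congr 2
    ring
  rw [h1, h2]
  ring

/-- **the Kummer-to-Artin–Schreier substitution**: if `z^p = g^p (1 + π^p G)` in an `R`-algebra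
`L` where `π` and `g` are invertible, then `θ = (z/g - 1)/π` is a root of `askPoly - G`. -/
theorem aeval_askPoly_sub {L : Type*} [Field L] [Algebra R L] {p : ℕ} (hp : p.Prime) {π ε G : R}
    (h : (p : R) = ε * π ^ (p - 1)) (hπ : algebraMap R L π ≠ 0) {z g : L} (hg : g ≠ 0)
    (hz : z ^ p = g ^ p * (1 + algebraMap R L π ^ p * algebraMap R L G)) :
    aeval ((z / g - 1) / algebraMap R L π) (askPoly p π ε - C G) = 0 := by
  set θ : L := (z / g - 1) / algebraMap R L π with hθ
  have h1 := congrArg (aeval θ) (C_pow_mul_askPoly hp h)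
  simp only [map_mul, map_sub, map_pow, map_add, map_one, aeval_C, aeval_X] at h1
  have h2 : 1 + algebraMap R L π * θ = z / g := by
    rw [hθ, mul_div_cancel₀ _ hπ]; ring
  rw [h2, div_pow, hz, mul_div_cancel_left₀ _ (pow_ne_zero _ hg)] at h1
  have h3 : algebraMap R L π ^ p * (aeval θ (askPoly p π ε) - algebraMap R L G) = 0 := by
    rw [mul_sub, h1]; ring
  rw [map_sub, aeval_C]
  exact (mul_eq_zero.mp h3).resolve_left (pow_ne_zero _ hπ)

/-- the value of the derivative at a root: `Q'(θ) = ε (1 + π θ)^(p-1)` and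
`(1 + π θ)^p = 1 + π^p G`. -/
theorem one_add_mul_pow_of_root {L : Type*} [CommRing L] [Algebra R L] {p : ℕ} (hp : p.Prime)
    {π ε G : R} (h : (p : R) = ε * π ^ (p - 1)) {θ : L}
    (hθ : aeval θ (askPoly p π ε - C G) = 0) :
    (1 + algebraMap R L π * θ) ^ p = 1 + algebraMap R L π ^ p * algebraMap R L G := by
  have h1 := congrArg (aeval θ) (C_pow_mul_askPoly hp h)
  simp only [map_mul, map_sub, map_pow, map_add, map_one, aeval_C, aeval_X] at h1
  rw [map_sub, aeval_C, sub_eq_zero] at hθ
  rw [hθ] at h1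
  rw [h1]; ring

end Fermat.Agent.S40x.ASK

namespace Fermat.Agent.S40x.BL

open Polynomial IntermediateField Fermat.Agent.S40x.EtaleAdjoin Fermat.Agent.S40x.ASK

variable {R K L : Type*} [CommRing R] [IsDomain R] [IsIntegrallyClosed R]
  [Field K] [Field L] [Algebra R K] [IsFractionRing R K]
  [Algebra K L] [Algebra R L] [IsScalarTower R K L]
  [FiniteDimensional K L] [Algebra.IsSeparable K L]

/-- **Consumer form (B_L).** `Q = askPoly p π ε`, `θ` a root of `Q - G` generating `L/K` with
`[L : K] = p`, `ε` and `1 + π^p G` units of `R`: every `R`-integral element of `L` lies in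
`R[θ]`. -/
theorem mem_adjoin_ask {p : ℕ} (hp : p.Prime) {π ε G : R} (hπ : π ≠ 0)
    (h : (p : R) = ε * π ^ (p - 1)) (hε : IsUnit ε) (hG : IsUnit (1 + π ^ p * G))
    {θ : L} (hθ : aeval θ (askPoly p π ε - C G) = 0) (htop : K⟮θ⟯ = ⊤)
    (hdeg : Module.finrank K L = p) {z : L} (hz : IsIntegral R z) :
    z ∈ Algebra.adjoin R ({θ} : Set L) := by
  classical
  set P : R[X] := askPoly p π ε - C G with hP
  have hnat : (askPoly p π ε).natDegree = p := askPoly_natDegree π ε
  have hCdeg : (C G : R[X]).degree < (askPoly p π ε).degree := by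
    rw [degree_eq_natDegree (askPoly_monic π ε).ne_zero, hnat]
    exact lt_of_le_of_lt degree_C_le (by exact_mod_cast hp.pos)
  have hPmonic : P.Monic := (askPoly_monic π ε).sub_of_left hCdeg
  have hPnat : P.natDegree = p := by
    rw [hP, natDegree_sub_eq_left_of_natDegree_lt, hnat]
    rw [natDegree_C, hnat]; exact hp.pos
  have hint : IsIntegral R θ := ⟨P, hPmonic, by rw [← aeval_def]; exact hθ⟩
  have hintK : IsIntegral K θ := hint.tower_top
  -- the minimal polynomial
  have hrootK : aeval θ (P.map (algebraMap R K)) = 0 := by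
    rw [aeval_map_algebraMap]; exact hθ
  have hfin : (minpoly K θ).natDegree = p := by
    rw [← IntermediateField.adjoin.finrank hintK, htop, IntermediateField.finrank_top', hdeg]
  have hmin : minpoly K θ = P.map (algebraMap R K) := by
    symm
    refine eq_of_monic_of_dvd_of_natDegree_le (minpoly.monic hintK)
      (hPmonic.map _) (minpoly.dvd K θ hrootK) ?_
    rw [hPmonic.natDegree_map, hPnat, hfin]
  -- power basis with generator θ
  let e : K⟮θ⟯ ≃ₐ[K] L := (IntermediateField.equivOfEq htop).trans IntermediateField.topEquiv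
  let B : PowerBasis K L := (IntermediateField.adjoin.powerBasis hintK).map e
  have hgen : B.gen = θ := by
    simp [B, e]
  -- the derivative at θ
  have hder : aeval B.gen (derivative (minpoly K B.gen)) =
      algebraMap R L ε * (1 + algebraMap R L π * θ) ^ (p - 1) := by
    rw [hgen, hmin, derivative_map, aeval_map_algebraMap, hP, derivative_sub, derivative_C,
      sub_zero, derivative_askPoly hp hπ h]
    simp only [map_mul, map_pow, map_add, map_one, aeval_C, aeval_X]
  obtain ⟨uε, rfl⟩ := hε
  obtain ⟨uG, huG⟩ := hG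
  have hpow := one_add_mul_pow_of_root (L := L) hp h hθ
  set w : L := algebraMap R L (↑uε⁻¹ : R) * (1 + algebraMap R L π * θ) *
    algebraMap R L (↑uG⁻¹ : R) with hw
  have hwint : IsIntegral R w := by
    refine IsIntegral.mul (IsIntegral.mul isIntegral_algebraMap ?_) isIntegral_algebraMap
    exact IsIntegral.add isIntegral_one (IsIntegral.mul isIntegral_algebraMap hint)
  have hPw : aeval B.gen (derivative (minpoly K B.gen)) * w = 1 := by
    rw [hder, hw]
    have hp1 : p - 1 + 1 = p := Nat.sub_add_cancel hp.pos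
    have h1 : (1 + algebraMap R L π * θ) ^ (p - 1) * (1 + algebraMap R L π * θ) =
        algebraMap R L (↑uG : R) := by
      rw [← pow_succ, hp1, hpow, huG, map_add, map_one, map_mul, map_pow]
    calc algebraMap R L ↑uε * (1 + algebraMap R L π * θ) ^ (p - 1) *
          (algebraMap R L ↑uε⁻¹ * (1 + algebraMap R L π * θ) * algebraMap R L ↑uG⁻¹)
        = (algebraMap R L ↑uε * algebraMap R L ↑uε⁻¹) *
          ((1 + algebraMap R L π * θ) ^ (p - 1) * (1 + algebraMap R L π * θ)) *
            algebraMap R L ↑uG⁻¹ := by ring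
      _ = 1 := by
        rw [h1, ← map_mul, Units.mul_inv, map_one, one_mul, ← map_mul, Units.mul_inv, map_one]
  have := mem_adjoin_of_isUnit_derivative (R := R) B (hgen ▸ hint) hwint hPw hz
  rwa [hgen] at this

/-- `integralClosure R L = R[θ]` in the situation of `mem_adjoin_ask`. -/
theorem integralClosure_eq_adjoin_ask {p : ℕ} (hp : p.Prime) {π ε G : R} (hπ : π ≠ 0)
    (h : (p : R) = ε * π ^ (p - 1)) (hε : IsUnit ε) (hG : IsUnit (1 + π ^ p * G))
    {θ : L} (hθ : aeval θ (askPoly p π ε - C G) = 0) (htop : K⟮θ⟯ = ⊤)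
    (hdeg : Module.finrank K L = p) :
    integralClosure R L = Algebra.adjoin R ({θ} : Set L) := by
  apply le_antisymm
  · intro z hz
    exact mem_adjoin_ask hp hπ h hε hG hθ htop hdeg hz
  · rw [Algebra.adjoin_le_iff]
    intro x hx
    rw [Set.mem_singleton_iff] at hx
    subst hx
    refine ⟨askPoly p π ε - C G, ?_, by rw [← aeval_def]; exact hθ⟩
    have hnat : (askPoly p π ε).natDegree = p := askPoly_natDegree π ε
    refine (askPoly_monic π ε).sub_of_left ?_
    rw [degree_eq_natDegree (askPoly_monic π ε).ne_zero, hnat]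
    exact lt_of_le_of_lt degree_C_le (by exact_mod_cast hp.pos)

end Fermat.Agent.S40x.BL

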